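/-
Project BAD, layer L-MOD, block NC (non-cuspidal closed points of the model of `X₀(q² N₀)`).
Sub-architect: helper71.  Target: `S36.BP.PtHyp` at the closed points `R` with `j ∈ R`, in the
one-field language of `S36/BP/Defs.lean` and `BAD/Model/Defs.lean`.

Notation of the application (`T` an etale coordinate of level `N₀`, e.g. the Hauptmodul of level
`4` or `9`; `θ = t d/dt`):
* `T₀ = T(τ)`, `T₁ = T(qτ)`, `T₂ = T(q²τ)`;
* `κ = q dT₀/dT₁ = (θT)(t) / (θT)(t^q)` (level `q N₀`), `κ · w(κ) = q²`, `div κ = 2 C₁₀`;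
* `X1 = α κ`, `X2 = β κ`;  `z = T₂ - T₀`;  `g = T₂ - T₁^q`, `g' = T₁ - T₂^q`.
* `V 0 = V₂₀`, `V 1 = V₁₁`, `V 2 = V₀₂`.
-/
import Mathlib
import Fermat.Agent.S18.Defs
import Fermat.Agent.S36.BP.Defs
import Fermat.Agent.BAD.Model.Defs

set_option autoImplicit false

noncomputable section

namespace Fermat.Agent.BAD.Model.NC

open Fermat.Agent.S18 Fermat.Agent.S36.BP

variable {F : Type*} [Field F]

/-- **Incidence data.**  Vertical orders of `X1 = α κ`, `X2 = β κ`: `(0,0,2)`, `(0,2(q-1),2)`, and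
the three congruences.  The indicator functions of the three components are
`q²/X2`, `X2/X1`, `X1`. -/
structure Inc (q : ℕ) (V : Fin 3 → ValuationSubring F) (X1 X2 : F) : Prop where
  v01 : (V 0).valuation X1 = 1
  v02 : (V 0).valuation X2 = 1
  v11 : (V 1).valuation X1 = 1
  v12 : (V 1).valuation X2 = (V 1).valuation (q : F) ^ 2
  v21 : (V 2).valuation X1 = (V 2).valuation (q : F) ^ 2
  v22 : (V 2).valuation X2 = (V 2).valuation (q : F) ^ 2
  c0 : (V 0).valuation (X2 - X1 ^ q) < 1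
  c1 : (V 1).valuation ((q : F) ^ 2 / X2 - X1) < 1
  c2 : (V 2).valuation ((q : F) ^ 2 / X1 - ((q : F) ^ 2 / X2) ^ q) < 1

/-- The explicit elements and their vertical behaviour. -/
structure Elts (q : ℕ) (V : Fin 3 → ValuationSubring F) (X1 X2 z g g' : F) : Prop where
  inc : Inc q V X1 X2
  /-- `(T₂ - T₀)^(q-1) α(κ) ≡ -q` on the middle component -/
  z_cong : (V 1).valuation (z ^ (q - 1) * X1 / (q : F) + 1) < 1
  g'_v0 : (V 0).valuation g' = 1
  g_v1 : (V 1).valuation g = 1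
  g_v2 : (V 2).valuation g = 1

/-- The explicit elements are regular at the point `R` (`X1`, `X2` are horizontal units). -/
structure MemR (R : Subring F) (q : ℕ) (X1 X2 z g g' : F) : Prop where
  hX1 : X1 ∈ R
  hX2 : X2 ∈ R
  hX1' : (q : F) ^ 2 / X1 ∈ R
  hX2' : (q : F) ^ 2 / X2 ∈ R
  hz : z ∈ R
  hg : g ∈ R
  hg' : g' ∈ R

/-- **A local ring `R₀` of the good model of level `N₀`** (function field `F₀`, vertical valuation
`W₀` with uniformiser `q`) lying below the point `R` of `F` along `ι : F₀ → F`. -/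
structure Good0 {F₀ : Type*} [Field F₀] (ι : F₀ →+* F) (W₀ : ValuationSubring F₀) (q : ℕ)
    (R : Subring F) (R₀ : Subring F₀) : Prop where
  map_mem : ∀ r ∈ R₀, ι r ∈ R
  inv_mem : ∀ r ∈ R₀, RUnit R (ι r) → r⁻¹ ∈ R₀
  le : ∀ r ∈ R₀, r ∈ W₀
  /-- `R₀ ∩ 𝔪(W₀) = q R₀` -/
  qep : ∀ y ∈ R₀, W₀.valuation y < 1 → y / (q : F₀) ∈ R₀
  /-- the image of `R₀` in the residue field of `W₀` is a valuation ring -/
  branch : ∀ y : F₀, W₀.valuation y = 1 →
    ∃ η ∈ R₀, W₀.valuation (y - η) < 1 ∨ W₀.valuation (y⁻¹ - η) < 1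
  /-- whose maximal ideal is principal -/
  reg : ∃ t ∈ R₀, ι t ∈ rad R ∧ ∀ y ∈ R₀, ι y ∈ rad R → ∃ r ∈ R₀, W₀.valuation (y - r * t) < 1

end Fermat.Agent.BAD.Model.NC
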