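/-
Project BAD, layer L-MOD, block NC, node NC-L1 (helper11).
-/
import Mathlib
import Fermat.Agent.S18.Defs
import Fermat.Agent.S36.BP.Defs
import Fermat.Agent.S36.BP.Rad
import Fermat.Agent.S36.BP.Build.LocalCrit
import Fermat.Agent.BAD.Model.Defs
import Fermat.Agent.BAD.Model.NC.Defs

set_option autoImplicit false

noncomputable section

namespace Fermat.Agent.BAD.Model.NC

open Fermat.Agent.S18 Fermat.Agent.S36.BP Fermat.Agent.S36.BP.Build

variable {K₀ F : Type*} [Field K₀] [Field F] [Algebra K₀ F]
variable {A₀ : ValuationSubring K₀} {q : ℕ} {V : Fin 3 → ValuationSubring F} {ϖm : F}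
variable {R : Subring F} {X1 X2 z g g' : F}

theorem through_or_away (hR : PtBase A₀ q V R) (hT : ∀ i, LeLoc R (V i) → Through R (V i))
    (c : Fin 3) : Through R (V c) ∨ Away R (V c) :=
  (hR.leLoc_or_away c).imp (hT c) id

theorem locQep (hR : PtBase A₀ q V R) (hT : ∀ i, LeLoc R (V i) → Through R (V i)) :
    LocQep q V R :=
  fun y hy hu => hR.qep y hy fun c => (through_or_away hR hT c).imp (hu c) id

theorem exists_through' (hR : PtBase A₀ q V R) (hT : ∀ i, LeLoc R (V i) → Through R (V i)) :
    ∃ c, Through R (V c) := by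
  by_contra hcon
  exact hR.not_all_away fun c => (through_or_away hR hT c).resolve_left fun h => hcon ⟨c, h⟩

end Fermat.Agent.BAD.Model.NC
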