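/-
Project BAD, layer L-MOD, block NC, node NC-L4 (sub-architect helper71):
at a crossing point of thickness one, `P₂₀ = (T₂ - T₁^q)`.
-/
import Mathlib
import Fermat.Agent.S18.Defs
import Fermat.Agent.S36.BP.Defs
import Fermat.Agent.S36.BP.Rad
import Fermat.Agent.S36.BP.Build.LocalCrit
import Fermat.Agent.S36.BP.Build.Level0
import Fermat.Agent.BAD.Model.Defs
import Fermat.Agent.BAD.Model.NC.Defs

set_option autoImplicit false

noncomputable section

namespace Fermat.Agent.BAD.Model.NC

open Fermat.Agent.S18 Fermat.Agent.S36.BP Fermat.Agent.S36.BP.Build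

variable {K₀ F : Type*} [Field K₀] [Field F] [Algebra K₀ F]
variable {A₀ : ValuationSubring K₀} {q : ℕ} {V : Fin 3 → ValuationSubring F} {ϖm : F}
variable {R : Subring F} {X1 X2 z g g' : F}

/-- at a crossing point of thickness one, `P₂₀ = (T₂ - T₁^q)`. -/
theorem princ_cross (hq0 : (q : F) ≠ 0) (hU0 : IsUnif (V 0) (q : F)) (hR : PtBase A₀ q V R)
    (hT : ∀ i, LeLoc R (V i) → Through R (V i)) (hall : ∀ c, Through R (V c))
    (hg : g ∈ R) (hg' : g' ∈ R) (h0 : (V 0).valuation g' = 1) (h1 : (V 1).valuation g = 1)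
    (h2 : (V 2).valuation g = 1) (hu : RUnit R (g * g' / (q : F))) : Princ R (V 0) := by
  have hqep : LocQep q V R := fun y hy hc => hR.qep y hy fun c => Or.inl (hc c (hall c))
  have hvq : (V 0).valuation (q : F) ≠ 0 := (Valuation.ne_zero_iff _).2 hq0
  have hv : (V 0).valuation (g * g' / (q : F)) = 1 := hu.val_eq_one (hall 0).le
  have hgq : (V 0).valuation g = (V 0).valuation (q : F) := by
    rw [map_div₀, map_mul, h0, mul_one] at hv
    exact (div_eq_one_iff_eq hvq).1 hv
  have hg0 : g ≠ 0 := ne_zero_of_val_eq_one h1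
  have hg'0 : g' ≠ 0 := ne_zero_of_val_eq_one h0
  refine princ_of hqep 0 hg hg0 (k := 1) ?_ ?_ ?_ ?_
  · have e : (q : F) ^ 1 / g = g' * (g * g' / (q : F))⁻¹ := by
      field_simp
    rw [e]
    exact R.mul_mem hg' hu.inv_mem
  · rw [hgq]
    exact Level0.val_unif_lt_one hU0
  · intro y hy
    rw [hgq]
    have h3 := Level0.div_mem_of_val_lt_one hU0 hy
    rw [mem_iff_val_le, map_div₀] at h3
    exact (div_le_one₀ (zero_lt_iff.2 hvq)).1 h3
  · intro c hc _
    fin_cases c
    · exact absurd rfl hc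
    · exact h1
    · exact h2

end Fermat.Agent.BAD.Model.NC
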