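/-
Project BAD, layer L-MOD, block NC (sub-architect helper71), node NC-T2 (owner helper247):
consequences of `Good0`.
-/
import Mathlib
import Fermat.Agent.S18.Defs
import Fermat.Agent.S36.BP.Defs
import Fermat.Agent.S36.BP.Rad
import Fermat.Agent.BAD.Model.Defs
import Fermat.Agent.BAD.Model.NC.Defs

set_option autoImplicit false

noncomputable section

namespace Fermat.Agent.BAD.Model.NC

open Fermat.Agent.S18 Fermat.Agent.S36.BP

variable {F : Type*} [Field F]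
variable {q : ℕ}
variable {R : Subring F}

section Thick

variable {F₀ : Type*} [Field F₀] {W₀ : ValuationSubring F₀} {R₀ : Subring F₀}

/-! ### transfer of valuations along `ι` -/

theorem good0_le_one_iff {ι : F₀ →+* F} {W : ValuationSubring F} (hW : W.comap ι = W₀) (y : F₀) :
    W.valuation (ι y) ≤ 1 ↔ W₀.valuation y ≤ 1 := by
  rw [ValuationSubring.valuation_le_one_iff, ValuationSubring.valuation_le_one_iff, ← hW,
    ValuationSubring.mem_comap]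

theorem good0_lt_one_iff {ι : F₀ →+* F} {W : ValuationSubring F} (hW : W.comap ι = W₀) (y : F₀) :
    W.valuation (ι y) < 1 ↔ W₀.valuation y < 1 := by
  rcases eq_or_ne y 0 with rfl | hy
  · simp
  have hy' : ι y ≠ 0 := (map_ne_zero ι).mpr hy
  have h1 := good0_le_one_iff hW y⁻¹
  rw [map_inv₀, map_inv₀, map_inv₀,
    inv_le_one₀ (zero_lt_iff.mpr ((Valuation.ne_zero_iff _).mpr hy')),
    inv_le_one₀ (zero_lt_iff.mpr ((Valuation.ne_zero_iff _).mpr hy))] at h1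
  rw [← not_le, ← not_le, h1]

theorem good0_eq_one_iff {ι : F₀ →+* F} {W : ValuationSubring F} (hW : W.comap ι = W₀) (y : F₀) :
    W.valuation (ι y) = 1 ↔ W₀.valuation y = 1 := by
  rw [le_antisymm_iff, le_antisymm_iff, good0_le_one_iff hW,
    ← not_lt (a := W.valuation (ι y)), ← not_lt (a := W₀.valuation y), good0_lt_one_iff hW]

/-! ### NC-T2 `BAD/Model/NC/Good0.lean` -/

theorem Good0.mem_rad_iff {ι : F₀ →+* F} (G : Good0 ι W₀ q R R₀) {r : F₀} (hr : r ∈ R₀) :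
    r ∈ rad R₀ ↔ ι r ∈ rad R := by
  constructor
  · rintro ⟨-, hnu⟩
    refine ⟨G.map_mem r hr, fun hu => hnu ⟨?_, hr, G.inv_mem r hr hu⟩⟩
    rintro rfl
    exact hu.1 (map_zero ι)
  · rintro ⟨-, hnu⟩
    refine ⟨hr, fun hu => hnu ⟨(map_ne_zero ι).mpr hu.1, G.map_mem r hr, ?_⟩⟩
    rw [← map_inv₀]
    exact G.map_mem _ hu.2.2

theorem Good0.add_rad {ι : F₀ →+* F} (G : Good0 ι W₀ q R R₀)
    (hadd : ∀ a ∈ rad R, ∀ b ∈ rad R, a + b ∈ rad R) :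
    ∀ a ∈ rad R₀, ∀ b ∈ rad R₀, a + b ∈ rad R₀ := by
  intro a ha b hb
  rw [G.mem_rad_iff (R₀.add_mem ha.1 hb.1), map_add]
  exact hadd _ ((G.mem_rad_iff ha.1).mp ha) _ ((G.mem_rad_iff hb.1).mp hb)

/-- `R₀ → R / (R ∩ 𝔪_W)` is onto if `f(W / W₀) = 1`. -/
theorem Good0.dense {ι : F₀ →+* F} (G : Good0 ι W₀ q R R₀) {W : ValuationSubring F}
    (hW : W.comap ι = W₀) (hle : ∀ r ∈ R, r ∈ W)
    (hadd : ∀ a ∈ rad R, ∀ b ∈ rad R, a + b ∈ rad R)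
    (hd : ∀ y ∈ W, ∃ y₀ : F₀, W.valuation (ι y₀ - y) < 1) :
    ∀ r ∈ R, ∃ r₀ ∈ R₀, W.valuation (ι r₀ - r) < 1 := by
  intro r hr
  rcases lt_or_eq_of_le (mem_iff_val_le.mp (hle r hr)) with hlt | heq
  · exact ⟨0, R₀.zero_mem, by rwa [map_zero, zero_sub, Valuation.map_neg]⟩
  obtain ⟨y₀, hy₀⟩ := hd r (hle r hr)
  have hy₀c : Cg W (ι y₀) r := hy₀
  have hy₀1 : W.valuation (ι y₀) = 1 := hy₀c.val_eq_one heq
  obtain ⟨η, hη, h | h⟩ := G.branch y₀ ((good0_eq_one_iff hW y₀).mp hy₀1)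
  · refine ⟨η, hη, ?_⟩
    have h1 : Cg W (ι y₀) (ι η) := by
      show W.valuation (ι y₀ - ι η) < 1
      rw [← map_sub]
      exact (good0_lt_one_iff hW _).mpr h
    exact h1.symm.trans hy₀c
  · have h1 : Cg W (ι y₀)⁻¹ (ι η) := by
      show W.valuation ((ι y₀)⁻¹ - ι η) < 1
      rw [← map_inv₀, ← map_sub]
      exact (good0_lt_one_iff hW _).mpr h
    -- `ι η ≡ r⁻¹`
    have h2 : Cg W (ι η) r⁻¹ := h1.symm.trans (hy₀c.inv heq)
    have hr0 : r ≠ 0 := ne_zero_of_val_eq_one heq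
    by_cases hu : RUnit R (ι η)
    · refine ⟨η⁻¹, G.inv_mem η hη hu, ?_⟩
      have h3 := h2.inv (val_inv_eq_one heq)
      rw [inv_inv, ← map_inv₀] at h3
      exact h3
    · exfalso
      have hηrad : ι η ∈ rad R := ⟨G.map_mem η hη, hu⟩
      have h3 : r * ι η ∈ rad R := mul_mem_rad hr hηrad
      have h4 : Cg W (r * ι η) 1 := by
        have := h2.mul_left (c := r) heq.le
        rwa [mul_inv_cancel₀ hr0] at this
      have h5 : r * ι η - 1 ∈ rad R :=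
        mem_rad_of_val_lt hle (R.sub_mem h3.1 R.one_mem) h4
      have h6 : (1 : F) ∈ rad R := by
        have := hadd _ h3 _ (neg_mem_rad h5)
        rwa [neg_sub, add_sub_cancel] at this
      exact h6.2 (RUnit.one R)

theorem Good0.through {ι : F₀ →+* F} (G : Good0 ι W₀ q R R₀) {W : ValuationSubring F}
    (hW : W.comap ι = W₀) (hL : LeLoc R W)
    (hadd : ∀ a ∈ rad R, ∀ b ∈ rad R, a + b ∈ rad R)
    (hd : ∀ y ∈ W, ∃ y₀ : F₀, W.valuation (ι y₀ - y) < 1) : Through R W := by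
  obtain ⟨t₀, -, ht₀rad, hreg⟩ := G.reg
  refine ⟨hL.1, hL.2, ι t₀, ht₀rad, fun y hy => ?_⟩
  obtain ⟨y₀, hy₀, hy₀y⟩ := G.dense hW hL.1 hadd hd y hy.1
  have h1 : ι y₀ ∈ rad R := by
    have h2 : ι y₀ - y ∈ rad R :=
      mem_rad_of_val_lt hL.1 (R.sub_mem (G.map_mem y₀ hy₀) hy.1) hy₀y
    have := hadd _ h2 _ hy
    rwa [sub_add_cancel] at this
  obtain ⟨r₀, hr₀, hr₀y⟩ := hreg y₀ hy₀ h1
  refine ⟨ι r₀, G.map_mem r₀ hr₀, ?_⟩
  have h3 : Cg W (ι y₀) (ι r₀ * ι t₀) := by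
    show W.valuation (ι y₀ - ι r₀ * ι t₀) < 1
    rw [← map_mul, ← map_sub]
    exact (good0_lt_one_iff hW _).mpr hr₀y
  have h4 : Cg W (ι y₀) y := hy₀y
  exact h4.symm.trans h3

theorem Good0.halfPt {ι : F₀ →+* F} (G : Good0 ι W₀ q R R₀) {Va Vm : ValuationSubring F}
    (hWa : Va.comap ι = W₀) (hWm : Vm.comap ι = W₀) (hlea : ∀ r ∈ R, r ∈ Va)
    (hlem : ∀ r ∈ R, r ∈ Vm) (hadd : ∀ a ∈ rad R, ∀ b ∈ rad R, a + b ∈ rad R)
    (hda : ∀ y ∈ Va, ∃ y₀ : F₀, Va.valuation (ι y₀ - y) < 1)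
    (hdm : ∀ y ∈ Vm, ∃ y₀ : F₀, Vm.valuation (ι y₀ - y) < 1)
    {E : Subfield F} (hE : ∀ y, ι y ∈ E) {N : F →* F} (hN : ∀ ε : F, RUnit R ε → RUnit R (N ε)) :
    HalfPt E N Va Vm R := by
  refine ⟨fun r hr => ?_, fun r hr => ?_, hN⟩
  · obtain ⟨r₀, hr₀, h⟩ := G.dense hWa hlea hadd hda r hr
    exact ⟨ι r₀, G.map_mem r₀ hr₀, hE r₀, h⟩
  · obtain ⟨r₀, hr₀, h⟩ := G.dense hWm hlem hadd hdm r hr
    exact ⟨ι r₀, G.map_mem r₀ hr₀, hE r₀, h⟩

end Thick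

end Fermat.Agent.BAD.Model.NC
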