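/-
Project BAD, layer L-MOD, block NC, node NC-T3 (sub-architect helper71, proof helper183).
`Good0` from a good chart (KL-A: `S18.IsChart`) of level `N₀`, and the quotient rule.
-/
import Mathlib
import Fermat.Agent.S18.Defs
import Fermat.Agent.S36.BP.Defs
import Fermat.Agent.S36.BP.Rad
import Fermat.Agent.S36.BP.Loc.Basic
import Fermat.Agent.S36.BP.Build.Level0
import Fermat.Agent.BAD.Model.Defs
import Fermat.Agent.BAD.Model.Input.GoodBelow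
import Fermat.Agent.BAD.Model.NC.Defs

set_option autoImplicit false

noncomputable section

namespace Fermat.Agent.BAD.Model.NC

open Fermat.Agent.S18 Fermat.Agent.S36.BP Fermat.Agent.S36.BP.Build

variable {K₀ F : Type*} [Field K₀] [Field F] [Algebra K₀ F]
variable {A₀ : ValuationSubring K₀} {q : ℕ}
variable {R : Subring F}

section Thick

variable {F₀ : Type*} [Field F₀] [Algebra K₀ F₀] {W₀ : ValuationSubring F₀} {R₀ : Subring F₀}

open Fermat.Agent.BAD.Model.GBAux in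
/-- `Good0` from a good chart (KL-A: `S18.IsChart`) of level `N₀`: `R₀ = (B₀)_𝔪`,
`𝔪 = {b | ι b ∈ rad R}`. -/
theorem exists_good0_of_isChart (ι : F₀ →ₐ[K₀] F) (hU : IsUnif W₀ (q : F₀)) {B₀ : Subring F₀}
    (hB : IsChart W₀ (q : F₀) B₀) (hconst : ∀ a ∈ A₀, algebraMap K₀ F₀ a ∈ B₀)
    {W : ValuationSubring F} (hW : W.comap (ι : F₀ →+* F) = W₀) (hR : IsPt A₀ R)
    (hle : ∀ r ∈ R, r ∈ W) (hBR : ∀ b ∈ B₀, ι b ∈ R) :
    ∃ R₀ : Subring F₀, Good0 (ι : F₀ →+* F) W₀ q R R₀ ∧ (∀ b ∈ B₀, b ∈ R₀) ∧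
      ∀ r ∈ R₀, ∃ a ∈ B₀, ∃ s ∈ B₀, RUnit R (ι s) ∧ r * s = a := by
  have hBR' : ∀ b ∈ B₀, (ι : F₀ →+* F) b ∈ R := hBR
  haveI hprime := belowIdeal_isPrime (ι : F₀ →+* F) hR hBR'
  set 𝔫 : Ideal B₀ := belowIdeal (ι : F₀ →+* F) hR hBR' with h𝔫
  have hunit : ∀ {s : B₀}, s ∉ 𝔫 → RUnit R ((ι : F₀ →+* F) (s : F₀)) := fun hs =>
    runit_of_notMem_belowIdeal (ι : F₀ →+* F) hR hBR' hs
  have hval : ∀ {s : B₀}, s ∉ 𝔫 → W₀.valuation (s : F₀) = 1 := fun hs =>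
    val_eq_one_of_notMem_belowIdeal (ι : F₀ →+* F) hW hR hle hBR' hs
  have hspan := span_le_belowIdeal (ι : F₀ →+* F) hU hB hW hR hle hBR'
  have hquot : ∀ c d : B₀, d ∉ 𝔫 → (c : F₀) / d ∈ locSub B₀ 𝔫 := by
    intro c d hd
    exact ⟨c, d, hd, div_mul_cancel₀ _ (coe_ne_zero_of_notMem hd)⟩
  refine ⟨locSub B₀ 𝔫, ⟨?_, ?_, ?_, ?_, ?_, ?_⟩, fun b hb => le_locSub hb, ?_⟩
  · -- map_mem
    rintro r ⟨a, s, hs, e⟩
    have hs0 := coe_ne_zero_of_notMem hs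
    have : r = (a : F₀) * (s : F₀)⁻¹ := by
      rw [← e]; field_simp
    rw [this, map_mul, map_inv₀]
    exact R.mul_mem (hBR' a a.2) (hunit hs).inv_mem
  · -- inv_mem
    rintro r ⟨a, s, hs, e⟩ hu
    have ha : a ∉ 𝔫 := by
      intro ha
      have h1 : (ι : F₀ →+* F) (a : F₀) ∈ rad R := ha
      rw [← e, map_mul] at h1
      exact h1.2 (hu.mul (hunit hs))
    have hr0 : r ≠ 0 := by
      rintro rfl
      exact hu.1 (map_zero _)
    refine ⟨s, a, ha, ?_⟩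
    rw [← e]
    field_simp
  · -- le
    rintro r ⟨a, s, hs, e⟩
    have hs0 := coe_ne_zero_of_notMem hs
    have : r = (a : F₀) * (s : F₀)⁻¹ := by
      rw [← e]; field_simp
    rw [this]
    exact W₀.mul_mem _ _ (hB.le _ a.2) (val_eq_one_iff.1 (hval hs)).2.2
  · -- qep
    rintro y ⟨a, s, hs, e⟩ hy
    have hva : W₀.valuation (a : F₀) < 1 := by
      rw [← e, map_mul, hval hs, mul_one]
      exact hy
    have haq : (a : F₀) / (q : F₀) ∈ B₀ := hB.qep _ a.2 (Level0.div_mem_of_val_lt_one hU hva)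
    refine ⟨⟨_, haq⟩, s, hs, ?_⟩
    show y / (q : F₀) * (s : F₀) = (a : F₀) / (q : F₀)
    rw [← e]
    ring
  · -- branch
    intro y hy
    obtain ⟨c, d, hd, h⟩ := exists_approx (ι : F₀ →+* F) hU hB hW hR hle hBR' y hy
    exact ⟨(c : F₀) / d, hquot c d hd, h⟩
  · -- reg
    haveI := hB.ded ⟨(q : F₀), hB.unif_mem⟩ rfl
    obtain ⟨t₀, ht₀, hgen⟩ := quot_exists_gen (Ideal.span {(⟨(q : F₀), hB.unif_mem⟩ : B₀)}) 𝔫 hspan
    refine ⟨(t₀ : F₀), le_locSub t₀.2, ht₀, ?_⟩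
    rintro y ⟨a, s, hs, e⟩ hyrad
    have ha : a ∈ 𝔫 := by
      show (ι : F₀ →+* F) (a : F₀) ∈ rad R
      rw [← e, map_mul, mul_comm]
      exact mul_mem_rad (hBR' s s.2) hyrad
    obtain ⟨e', f, hf, hcf⟩ := hgen a ha
    have h3 := val_lt_of_mem_span hU hB hcf
    push_cast at h3
    have hfs : f * s ∉ 𝔫 := fun hmem => (hprime.mem_or_mem hmem).elim hf hs
    have hs0 := coe_ne_zero_of_notMem hs
    have hf0 := coe_ne_zero_of_notMem hf
    refine ⟨((e' : B₀) : F₀) / ((f * s : B₀) : F₀), hquot e' (f * s) hfs, ?_⟩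
    push_cast
    have e2 : y - (e' : F₀) / (f * s) * t₀ = ((a : F₀) * f - t₀ * e') / (f * s) := by
      rw [← e]
      field_simp
    rw [e2, map_div₀, map_mul, hval hf, hval hs, mul_one, div_one]
    exact h3
  · rintro r ⟨a, s, hs, e⟩
    exact ⟨a, a.2, s, s.2, hunit hs, e⟩

/-- the quotient rule. -/
theorem deriv_mem_of_frac (D : Derivation K₀ F₀ F₀) {B : Subring F₀} (hDB : ∀ b ∈ B, D b ∈ R₀)
    (hBR : ∀ b ∈ B, b ∈ R₀)
    (hfrac : ∀ r ∈ R₀, ∃ a ∈ B, ∃ s ∈ B, s ≠ 0 ∧ s⁻¹ ∈ R₀ ∧ r * s = a) :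
    ∀ r ∈ R₀, D r ∈ R₀ := by
  intro r hr
  obtain ⟨a, ha, s, hs, hs0, hsinv, e⟩ := hfrac r hr
  have h1 : D a = r * D s + s * D r := by
    rw [← e, Derivation.leibniz]
    simp only [smul_eq_mul]
  have h2 : D r = s⁻¹ * (D a - r * D s) := by
    rw [h1]
    field_simp
    ring
  rw [h2]
  exact R₀.mul_mem hsinv (R₀.sub_mem (hDB a ha) (R₀.mul_mem hr (hDB s hs)))

end Thick

end Fermat.Agent.BAD.Model.NC
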