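/-
Project BAD, layer L-MOD, block NC, node NC-L2 (helper11).
-/
import Mathlib
import Fermat.Agent.S18.Defs
import Fermat.Agent.S36.BP.Defs
import Fermat.Agent.S36.BP.Rad
import Fermat.Agent.S36.BP.Build.LocalCrit
import Fermat.Agent.BAD.Model.Defs
import Fermat.Agent.BAD.Model.NC.Defs
import Fermat.Agent.BAD.Model.NC.Basic

set_option autoImplicit false

noncomputable section

namespace Fermat.Agent.BAD.Model.NC

open Fermat.Agent.S18 Fermat.Agent.S36.BP Fermat.Agent.S36.BP.Build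

variable {K₀ F : Type*} [Field K₀] [Field F] [Algebra K₀ F]
variable {A₀ : ValuationSubring K₀} {q : ℕ} {V : Fin 3 → ValuationSubring F} {ϖm : F}
variable {R : Subring F} {X1 X2 z g g' : F}

/-- one component or all three. -/
theorem Inc.cross (hq : 2 ≤ q) (hq0 : (q : F) ≠ 0) (hR : PtBase A₀ q V R)
    (hT : ∀ i, LeLoc R (V i) → Through R (V i))
    (hlt : ∀ c, (V c).valuation (q : F) < 1)
    (I : Inc q V X1 X2) (h1 : X1 ∈ R) (h2 : X2 ∈ R) (h1' : (q : F) ^ 2 / X1 ∈ R)
    (h2' : (q : F) ^ 2 / X2 ∈ R) :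
    (∃ c, ∀ c', c' ≠ c → Away R (V c')) ∨ (∀ c, Through R (V c)) := by
  have hX1 : X1 ≠ 0 := ne_zero_of_val_eq_one I.v01
  have hX2 : X2 ≠ 0 := ne_zero_of_val_eq_one I.v02
  have hqep := locQep hR hT
  have hv : ∀ c, (V c).valuation (q : F) ≠ 0 := fun c => (Valuation.ne_zero_iff _).2 hq0
  have hlt2 : ∀ c, (V c).valuation (q : F) ^ 2 < 1 := fun c => pow_lt_one₀ zero_le (hlt c) two_ne_zero
  -- valuations of the three indicator functions
  have a00 : (V 0).valuation ((q : F) ^ 2 / X2) < 1 := by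
    rw [map_div₀, map_pow, I.v02, div_one]; exact hlt2 0
  have a01 : (V 1).valuation ((q : F) ^ 2 / X2) = 1 := by
    rw [map_div₀, map_pow, I.v12, div_self (pow_ne_zero 2 (hv 1))]
  have a02 : (V 2).valuation ((q : F) ^ 2 / X2) = 1 := by
    rw [map_div₀, map_pow, I.v22, div_self (pow_ne_zero 2 (hv 2))]
  have a10 : (V 0).valuation (X2 / X1) = 1 := by
    rw [map_div₀, I.v01, I.v02, div_one]
  have a11 : (V 1).valuation (X2 / X1) < 1 := by
    rw [map_div₀, I.v11, I.v12, div_one]; exact hlt2 1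
  have a12 : (V 2).valuation (X2 / X1) = 1 := by
    rw [map_div₀, I.v21, I.v22, div_self (pow_ne_zero 2 (hv 2))]
  have a22 : (V 2).valuation X1 < 1 := by
    rw [I.v21]; exact hlt2 2
  have hY1 : X2 / X1 ∈ R := by
    refine mem_of hqep (k := 2) ?_ fun c _ => ?_
    · have : (q : F) ^ 2 * (X2 / X1) = X2 * ((q : F) ^ 2 / X1) := by ring
      rw [this]
      exact R.mul_mem h2 h1'
    · rw [mem_iff_val_le]
      fin_cases c
      · exact a10.le
      · exact a11.le
      · exact a12.le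
  refine incidence hq hR.isPt.add_rad (through_or_away hR hT) (exists_through' hR hT)
    ![(q : F) ^ 2 / X2, X2 / X1, X1] ?_ ?_ ?_ ⟨1, RUnit.one R, ?_⟩ ⟨1, RUnit.one R, ?_⟩
    ⟨1, RUnit.one R, ?_⟩
  · intro c
    fin_cases c
    · exact h2'
    · exact hY1
    · exact h1
  · intro c
    fin_cases c
    · exact a00
    · exact a11
    · exact a22
  · intro c hA
    fin_cases c
    · refine runit_of hqep h2' (div_ne_zero (pow_ne_zero 2 hq0) hX2) (k := 2) ?_ fun c hc => ?_
      · have : (q : F) ^ 2 / ((q : F) ^ 2 / X2) = X2 := by field_simp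
        change (q : F) ^ 2 / ((q : F) ^ 2 / X2) ∈ R
        rw [this]
        exact h2
      · fin_cases c
        · exact (not_away_of_through hc hA).elim
        · exact a01
        · exact a02
    · refine runit_of hqep hY1 (div_ne_zero hX2 hX1) (k := 2) ?_ fun c hc => ?_
      · have : (q : F) ^ 2 / (X2 / X1) = X1 * ((q : F) ^ 2 / X2) := by field_simp
        change (q : F) ^ 2 / (X2 / X1) ∈ R
        rw [this]
        exact R.mul_mem h1 h2'
      · fin_cases c
        · exact a10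
        · exact (not_away_of_through hc hA).elim
        · exact a12
    · refine runit_of hqep h1 hX1 (k := 2) h1' fun c hc => ?_
      fin_cases c
      · exact I.v01
      · exact I.v11
      · exact (not_away_of_through hc hA).elim
  · -- on `V 0`
    have e : X2 / X1 - 1 * X1 ^ (q - 1) = (X2 - X1 ^ q) / X1 := by
      obtain ⟨m, rfl⟩ : ∃ m, q = m + 1 := ⟨q - 1, by omega⟩
      rw [Nat.add_sub_cancel, pow_succ]
      field_simp
    change (V 0).valuation (X2 / X1 - 1 * X1 ^ (q - 1)) < 1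
    rw [e, map_div₀, I.v01, div_one]
    exact I.c0
  · change (V 1).valuation ((q : F) ^ 2 / X2 - 1 * X1) < 1
    rw [one_mul]
    exact I.c1
  · have e : X2 / X1 - 1 * ((q : F) ^ 2 / X2) ^ (q - 1) =
        ((q : F) ^ 2 / X1 - ((q : F) ^ 2 / X2) ^ q) / ((q : F) ^ 2 / X2) := by
      have hb : (q : F) ^ 2 / X2 ≠ 0 := div_ne_zero (pow_ne_zero 2 hq0) hX2
      have e1 : X2 / X1 = ((q : F) ^ 2 / X1) / ((q : F) ^ 2 / X2) := by field_simp
      have e2 : ((q : F) ^ 2 / X2) ^ q = ((q : F) ^ 2 / X2) ^ (q - 1) * ((q : F) ^ 2 / X2) := by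
        rw [← pow_succ, Nat.sub_add_cancel (by omega)]
      rw [e2, sub_div, mul_div_assoc, div_self hb, mul_one, one_mul, ← e1]
    change (V 2).valuation (X2 / X1 - 1 * ((q : F) ^ 2 / X2) ^ (q - 1)) < 1
    rw [e, map_div₀, a02, div_one]
    exact I.c2

/-- `X1 = α κ` is a unit at the points off the component `V 2`. -/
theorem Inc.rUnit_X1 (hq0 : (q : F) ≠ 0) (hR : PtBase A₀ q V R)
    (hT : ∀ i, LeLoc R (V i) → Through R (V i)) (I : Inc q V X1 X2) (h1 : X1 ∈ R)
    (h1' : (q : F) ^ 2 / X1 ∈ R) (hA : Away R (V 2)) : RUnit R X1 := by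
  refine runit_of (locQep hR hT) h1 (ne_zero_of_val_eq_one I.v01) (k := 2) h1' fun c hc => ?_
  fin_cases c
  · exact I.v01
  · exact I.v11
  · exact (not_away_of_through hc hA).elim

/-- `q²/X2` lies in the maximal ideal of the points of the component `V 0`. -/
theorem Inc.mem_rad (hq0 : (q : F) ≠ 0) (hlt : (V 0).valuation (q : F) < 1) (I : Inc q V X1 X2)
    (h2' : (q : F) ^ 2 / X2 ∈ R) (hT : Through R (V 0)) : (q : F) ^ 2 / X2 ∈ rad R := by
  refine mem_rad_of_val_lt hT.le h2' ?_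
  rw [map_div₀, map_pow, I.v02, div_one]
  exact pow_lt_one₀ zero_le hlt two_ne_zero

end Fermat.Agent.BAD.Model.NC
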