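/-
Project BAD, layer L-MOD, block NC, node NC-L3 (helper50): non-cuspidal points of the middle
component only.  `z ^ (q - 1) = q * unit` implies that `z` generates the vertical prime; this applies
to `z = T₂ - T₀`.
-/
import Mathlib
import Fermat.Agent.S18.Defs
import Fermat.Agent.S36.BP.Defs
import Fermat.Agent.S36.BP.Rad
import Fermat.Agent.S36.BP.Approx
import Fermat.Agent.BAD.Model.Defs
import Fermat.Agent.BAD.Model.Cusp.Mid
import Fermat.Agent.BAD.Model.NC.Defs

set_option autoImplicit false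
set_option linter.unusedVariables false

noncomputable section

namespace Fermat.Agent.BAD.Model.NC

open Fermat.Agent.S18 Fermat.Agent.S36.BP

variable {K₀ F : Type*} [Field K₀] [Field F] [Algebra K₀ F]
variable {A₀ : ValuationSubring K₀} {q : ℕ} {V : Fin 3 → ValuationSubring F} {ϖm : F}
variable {R : Subring F} {X1 X2 z g g' : F}

/-- general principle: `z^(q-1) = q * unit` and only the middle component passes through `R`. -/
theorem princ_of_pow_eq (hq : 2 ≤ q) (hU1 : IsUnif (V 1) ϖm)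
    (hram : (V 1).valuation ϖm ^ (q - 1) = (V 1).valuation (q : F))
    (hR : PtBase A₀ q V R) (hA : ∀ i, i ≠ (1 : Fin 3) → Away R (V i)) (hz : z ∈ R)
    (hu : RUnit R (z ^ (q - 1) / (q : F))) : Princ R (V 1) := by
  have hle : ∀ r ∈ R, r ∈ V 1 := (hR.leLoc_of_away 1 hA).1
  have hz0 : z ≠ 0 := by
    rintro rfl
    apply hu.ne_zero
    rw [zero_pow (by omega), zero_div]
  have hvϖ0 : (V 1).valuation ϖm ≠ 0 := (Valuation.ne_zero_iff _).mpr hU1.ne_zero
  have hvq0 : (V 1).valuation (q : F) ≠ 0 := by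
    rw [← hram]
    exact pow_ne_zero _ hvϖ0
  have hqF : (q : F) ≠ 0 := (Valuation.ne_zero_iff _).mp hvq0
  -- `z` is a uniformiser
  have hvz : (V 1).valuation z = (V 1).valuation ϖm := by
    have h1 := hu.val_eq_one hle
    rw [map_div₀, map_pow, div_eq_one_iff_eq hvq0, ← hram] at h1
    exact (pow_left_inj₀ zero_le zero_le (by omega : q - 1 ≠ 0)).1 h1
  have hzlt : (V 1).valuation z < 1 := by
    rw [hvz]
    exact approx_val_unif_lt_one hU1
  refine ⟨z, hz, hz0, hzlt, fun r hr hrlt => ?_⟩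
  apply hR.qep
  · have : (q : F) * (r / z) = r * z ^ (q - 2) * (z ^ (q - 1) / (q : F))⁻¹ := by
      have h1 : z ^ (q - 1) = z ^ (q - 2) * z := by
        rw [← pow_succ]; congr 1; omega
      rw [h1]
      field_simp
    rw [this]
    exact R.mul_mem (R.mul_mem hr (R.pow_mem hz _)) hu.inv_mem
  · intro i
    fin_cases i
    · exact Or.inr (hA 0 (by decide))
    · refine Or.inl ?_
      show r / z ∈ V 1
      rw [mem_iff_val_le, map_div₀, hvz, div_le_one₀ (zero_lt_iff.mpr hvϖ0)]
      exact approx_val_le_unif hU1 hrlt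
    · exact Or.inr (hA 2 (by decide))

/-- at a non-cuspidal point of the middle component only, `P₁₁ = (T₂ - T₀)`. -/
theorem princ_mid (hq : 2 ≤ q) (hq0 : (q : F) ≠ 0) (hU1 : IsUnif (V 1) ϖm)
    (hram : (V 1).valuation ϖm ^ (q - 1) = (V 1).valuation (q : F))
    (hR : PtBase A₀ q V R) (hT : ∀ i, LeLoc R (V i) → Through R (V i))
    (hA : ∀ i, i ≠ (1 : Fin 3) → Away R (V i)) (I : Inc q V X1 X2) (h1 : X1 ∈ R)
    (h1' : (q : F) ^ 2 / X1 ∈ R) (hz : z ∈ R)
    (hzc : (V 1).valuation (z ^ (q - 1) * X1 / (q : F) + 1) < 1) : Princ R (V 1) := by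
  have hle : ∀ r ∈ R, r ∈ V 1 := (hR.leLoc_of_away 1 hA).1
  have hP := hR.isPt
  have e : z ^ (q - 1) * X1 / (q : F) = z ^ (q - 1) / (q : F) * X1 := by ring
  rw [e] at hzc
  -- `w * X1 ≡ -1`
  have hcg : Cg (V 1) (z ^ (q - 1) / (q : F) * X1) (-1) := by
    unfold Cg
    rwa [sub_neg_eq_add]
  have hv : (V 1).valuation (z ^ (q - 1) / (q : F) * X1) = 1 :=
    hcg.val_eq_one (by rw [Valuation.map_neg, map_one])
  have hvw : (V 1).valuation (z ^ (q - 1) / (q : F)) = 1 := by
    rwa [map_mul, I.v11, mul_one] at hv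
  have hwR : z ^ (q - 1) / (q : F) ∈ R := by
    apply hR.qep
    · rw [mul_div_cancel₀ _ hq0]
      exact R.pow_mem hz _
    · intro i
      fin_cases i
      · exact Or.inr (hA 0 (by decide))
      · exact Or.inl (mem_iff_val_le.2 hvw.le)
      · exact Or.inr (hA 2 (by decide))
  have hcr : Cr R (z ^ (q - 1) / (q : F) * X1) (-1) :=
    hcg.cr hle (R.mul_mem hwR h1) (R.neg_mem R.one_mem)
  have hunit : RUnit R (z ^ (q - 1) / (q : F) * X1) := hP.runit_of_cr hcr (RUnit.one R).neg
  exact princ_of_pow_eq hq hU1 hram hR hA hz (RUnit.of_mul_left hwR h1 hunit)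

end Fermat.Agent.BAD.Model.NC
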