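/-
Project BAD, layer L-MOD, block NC (sub-architect helper71), node NC-T1 (proof: helper220).
**Igusa's theorem in disguise**: a derivation argument in a local ring of the good model.
-/
import Mathlib
import Fermat.Agent.S18.Defs
import Fermat.Agent.S18.Chart.Unif
import Fermat.Agent.S36.BP.Defs
import Fermat.Agent.S36.BP.Rad

set_option autoImplicit false

noncomputable section

namespace Fermat.Agent.BAD.Model.NC

open Fermat.Agent.S18 Fermat.Agent.S36.BP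

variable {K₀ : Type*} [Field K₀] {q : ℕ}

section Thick

variable {F₀ : Type*} [Field F₀] [Algebra K₀ F₀] {W₀ : ValuationSubring F₀} {R₀ : Subring F₀}

theorem thick0_val_unif_lt_one {ϖ : F₀} (hU : IsUnif W₀ ϖ) : W₀.valuation ϖ < 1 := by
  have h1 : ¬ W₀.valuation ϖ⁻¹ ≤ 1 := fun h => hU.inv_notMem ((W₀.valuation_le_one_iff _).1 h)
  rw [not_le, map_inv₀] at h1
  by_contra h2
  rw [not_lt] at h2
  exact absurd (inv_le_one_of_one_le₀ h2) (not_le.2 h1)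

theorem thick0_div_mem {ϖ : F₀} (hU : IsUnif W₀ ϖ) {y : F₀} (hy : W₀.valuation y < 1) :
    y / ϖ ∈ W₀ := by
  by_cases hy0 : y = 0
  · rw [hy0, zero_div]; exact W₀.zero_mem
  · refine hU.div_mem ((W₀.valuation_le_one_iff _).1 hy.le) fun h => ?_
    have h1 := (W₀.valuation_le_one_iff _).2 h
    rw [map_inv₀] at h1
    have h2 : W₀.valuation y ≠ 0 := (Valuation.ne_zero_iff _).2 hy0
    have h3 : 1 ≤ W₀.valuation y := (inv_le_one₀ (zero_lt_iff.2 h2)).1 h1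
    exact absurd hy (not_lt.2 h3)

/-- `D (q * w) = q * D w`. -/
theorem thick0_D_natCast_mul (D : Derivation K₀ F₀ F₀) (n : ℕ) (w : F₀) :
    D ((n : F₀) * w) = (n : F₀) * D w := by
  rw [D.leibniz, Derivation.map_natCast, smul_zero, add_zero, smul_eq_mul]

/-- `D y = q * D (y / q)`. -/
theorem thick0_D_eq (D : Derivation K₀ F₀ F₀) (hq0 : (q : F₀) ≠ 0) (y : F₀) :
    D y = (q : F₀) * D (y / (q : F₀)) := by
  rw [← thick0_D_natCast_mul, mul_div_cancel₀ _ hq0]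

theorem thick0_one_notMem_rad : (1 : F₀) ∉ rad R₀ := fun h => h.2 (RUnit.one R₀)

/-- **Igusa's theorem in disguise.**  `R₀` a local ring of the good model of level `N₀`, `D = d/dT`
preserves `R₀` and `W₀`; `ψ = red((T(t^q) - T^q)/q)`, `k₀ = red κ`, `D ψ = 1/k₀ - T^(q-1)`.
If `k₀` vanishes at the point then `(T - T^(q²)) ψ` does not. -/
theorem thick0 (hq : q.Prime) (hU : IsUnif W₀ (q : F₀)) (hle : ∀ r ∈ R₀, r ∈ W₀)
    (hadd : ∀ a ∈ rad R₀, ∀ b ∈ rad R₀, a + b ∈ rad R₀)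
    (hqep : ∀ y ∈ R₀, W₀.valuation y < 1 → y / (q : F₀) ∈ R₀)
    (hreg : ∃ t ∈ rad R₀, ∀ y ∈ rad R₀, ∃ r ∈ R₀, W₀.valuation (y - r * t) < 1)
    (D : Derivation K₀ F₀ F₀) (hDR : ∀ r ∈ R₀, D r ∈ R₀) (hDW : ∀ y ∈ W₀, D y ∈ W₀)
    {T : F₀} (hT : T ∈ R₀) (hDT : D T = 1) {a : K₀} (ha : algebraMap K₀ F₀ a ∈ R₀)
    (hTa : T - algebraMap K₀ F₀ a ∈ rad R₀)
    (haq : W₀.valuation (algebraMap K₀ F₀ (a ^ (q ^ 2) - a)) < 1)
    {ψ k₀ e₀ : F₀} (hψ : ψ ∈ W₀) (hk₀ : k₀ ∈ rad R₀) (he₀ : e₀ ∈ rad R₀)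
    (he : W₀.valuation (e₀ - (T - T ^ (q ^ 2)) * ψ) < 1)
    (hk : W₀.valuation (k₀ * (D ψ + T ^ (q - 1)) - 1) < 1) : False := by
  have hq0 : (q : F₀) ≠ 0 := hU.ne_zero
  have hqlt : W₀.valuation (q : F₀) < 1 := thick0_val_unif_lt_one hU
  have hqR : (q : F₀) ∈ R₀ := natCast_mem R₀ q
  have hqrad : (q : F₀) ∈ rad R₀ := mem_rad_of_val_lt hle hqR hqlt
  have hvle : ∀ r ∈ R₀, W₀.valuation r ≤ 1 := fun r hr => mem_iff_val_le.1 (hle r hr)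
  -- (P): `y ∈ R₀ ∩ 𝔪` implies `D y ∈ rad R₀`
  have hP : ∀ y ∈ R₀, W₀.valuation y < 1 → D y ∈ rad R₀ := by
    intro y hy hlt
    rw [thick0_D_eq D hq0 y, mul_comm]
    exact mul_mem_rad (hDR _ (hqep y hy hlt)) hqrad
  -- (P'): `y ∈ 𝔪` implies `D y ∈ 𝔪`
  have hP' : ∀ y : F₀, W₀.valuation y < 1 → W₀.valuation (D y) < 1 := by
    intro y hlt
    rw [thick0_D_eq D hq0 y, map_mul]
    exact mul_lt_one_of_nonneg_of_lt_one_left zero_le hqlt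
      (mem_iff_val_le.1 (hDW _ (thick0_div_mem hU hlt)))
  set A : F₀ := algebraMap K₀ F₀ a with hA
  set τ : F₀ := T - A with hτ
  have hDτ : D τ = 1 := by
    rw [hτ, map_sub, hDT, hA, Derivation.map_algebraMap, sub_zero]
  have hτR : τ ∈ R₀ := hTa.1
  -- Step 4: `τ` is a unit of `W₀`
  have hτ1 : W₀.valuation τ = 1 := by
    rcases lt_or_eq_of_le (hvle τ hτR) with hlt | heq
    · exfalso
      have := hP τ hτR hlt
      rw [hDτ] at this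
      exact thick0_one_notMem_rad this
    · exact heq
  have hτ0 : τ ≠ 0 := ne_zero_of_val_eq_one hτ1
  -- Step 1
  obtain ⟨t, ht, hgen⟩ := hreg
  obtain ⟨r₁, hr₁, h1⟩ := hgen τ hTa
  have hr₁u : RUnit R₀ r₁ := by
    rcases runit_or_mem_rad hr₁ with hu | hr
    · exact hu
    · exfalso
      have h2 := hP (τ - r₁ * t) (R₀.sub_mem hτR (R₀.mul_mem hr₁ ht.1)) h1
      rw [map_sub, hDτ, D.leibniz, smul_eq_mul, smul_eq_mul] at h2
      have h3 : (1 : F₀) = (1 - (r₁ * D t + t * D r₁)) + (D t * r₁ + D r₁ * t) := by ring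
      apply thick0_one_notMem_rad (R₀ := R₀)
      rw [h3]
      exact hadd _ h2 _ (hadd _ (mul_mem_rad (hDR _ ht.1) hr) _ (mul_mem_rad (hDR _ hr₁) ht))
  have hr₁1 : W₀.valuation r₁ = 1 := hr₁u.val_eq_one hle
  -- `t ≡ r₁⁻¹ τ`
  have ht' : Cg W₀ t (r₁⁻¹ * τ) := by
    have h2 : Cg W₀ (r₁⁻¹ * τ) (r₁⁻¹ * (r₁ * t)) :=
      Cg.mul_left (V := W₀) h1 (val_inv_eq_one hr₁1).le
    rw [← mul_assoc, inv_mul_cancel₀ hr₁u.1, one_mul] at h2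
    exact h2.symm
  -- Step 2
  obtain ⟨r₂, hr₂, h2⟩ := hgen e₀ he₀
  have he₀' : Cg W₀ e₀ (r₂ * (r₁⁻¹ * τ)) :=
    Cg.trans (V := W₀) h2 (ht'.mul_left (hvle r₂ hr₂))
  -- Step 3
  obtain ⟨k, hkk⟩ := Polynomial.powAddExpansion (⟨A, ha⟩ : R₀) (⟨τ, hτR⟩ : R₀) (q ^ 2)
  have hkk' : (A + τ) ^ (q ^ 2) =
      A ^ (q ^ 2) + ((q ^ 2 : ℕ) : F₀) * A ^ (q ^ 2 - 1) * τ + (k : F₀) * τ ^ 2 := by
    have := congrArg (Subtype.val : R₀ → F₀) hkk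
    simpa using this
  set c : F₀ := ((q ^ 2 : ℕ) : F₀) * A ^ (q ^ 2 - 1) + (k : F₀) * τ with hc
  have hcrad : c ∈ rad R₀ := by
    refine hadd _ ?_ _ (mul_mem_rad k.2 hTa)
    have e1 : ((q ^ 2 : ℕ) : F₀) * A ^ (q ^ 2 - 1) = ((q : F₀) * A ^ (q ^ 2 - 1)) * (q : F₀) := by
      push_cast
      ring
    rw [e1]
    exact mul_mem_rad (R₀.mul_mem hqR (R₀.pow_mem ha _)) hqrad
  have hTpow : T ^ (q ^ 2) = A ^ (q ^ 2) + τ * c := by
    have : T = A + τ := by rw [hτ]; ring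
    rw [this, hkk', hc]
    ring
  have h1c : RUnit R₀ (1 - c) := by
    rcases runit_or_mem_rad (R₀.sub_mem R₀.one_mem hcrad.1) with hu | hr
    · exact hu
    · exfalso
      apply thick0_one_notMem_rad (R₀ := R₀)
      have : (1 : F₀) = (1 - c) + c := by ring
      rw [this]
      exact hadd _ hr _ hcrad
  have h1c1 : W₀.valuation (1 - c) = 1 := h1c.val_eq_one hle
  -- `T - T^(q²) ≡ τ (1 - c)`
  have hTT : Cg W₀ (T - T ^ (q ^ 2)) (τ * (1 - c)) := by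
    unfold Cg
    have e1 : T - T ^ (q ^ 2) - τ * (1 - c) = -(algebraMap K₀ F₀ (a ^ (q ^ 2) - a)) := by
      rw [hTpow, map_sub, map_pow, hτ]
      ring
    rw [e1, Valuation.map_neg]
    exact haq
  -- Step 5
  have hψ1 : W₀.valuation ψ ≤ 1 := mem_iff_val_le.1 hψ
  have h5 : Cg W₀ (τ * (1 - c) * ψ) (r₂ * (r₁⁻¹ * τ)) :=
    ((hTT.mul_right hψ1).symm.trans (Cg.symm (V := W₀) he)).trans he₀'
  set ψ' : F₀ := r₂ * r₁⁻¹ * (1 - c)⁻¹ with hψ'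
  have hψ'R : ψ' ∈ R₀ := R₀.mul_mem (R₀.mul_mem hr₂ hr₁u.inv_mem) h1c.inv_mem
  have h6 : Cg W₀ ψ ψ' := by
    have h7 := h5.mul_left (c := τ⁻¹ * (1 - c)⁻¹)
      (by rw [map_mul, val_inv_eq_one hτ1, val_inv_eq_one h1c1, one_mul])
    have e1 : τ⁻¹ * (1 - c)⁻¹ * (τ * (1 - c) * ψ) = ψ := by
      have := h1c.1
      field_simp
    have e2 : τ⁻¹ * (1 - c)⁻¹ * (r₂ * (r₁⁻¹ * τ)) = ψ' := by
      rw [hψ']
      field_simp
    rwa [e1, e2] at h7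
  -- Step 6
  have h8 : Cg W₀ (D ψ) (D ψ') := by
    unfold Cg
    rw [← map_sub]
    exact hP' _ h6
  -- Step 7
  have hmR : D ψ' + T ^ (q - 1) ∈ R₀ := R₀.add_mem (hDR _ hψ'R) (R₀.pow_mem hT _)
  have hmrad : k₀ * (D ψ' + T ^ (q - 1)) ∈ rad R₀ := by
    rw [mul_comm]
    exact mul_mem_rad hmR hk₀
  have hm1 : Cg W₀ (k₀ * (D ψ' + T ^ (q - 1))) 1 :=
    Cg.trans (((h8.symm.add (Cg.refl W₀ (T ^ (q - 1)))).mul_left (hvle k₀ hk₀.1))) hk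
  have hm2 : k₀ * (D ψ' + T ^ (q - 1)) - 1 ∈ rad R₀ :=
    mem_rad_of_val_lt hle (R₀.sub_mem hmrad.1 R₀.one_mem) hm1
  apply thick0_one_notMem_rad (R₀ := R₀)
  have e3 : (1 : F₀) = k₀ * (D ψ' + T ^ (q - 1)) + -(k₀ * (D ψ' + T ^ (q - 1)) - 1) := by ring
  rw [e3]
  exact hadd _ hmrad _ (neg_mem_rad hm2)

end Thick

end Fermat.Agent.BAD.Model.NC
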