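/-
Project BAD, layer L-MOD, block NC, node NC-T4: thickness one at the crossing points (transfer of
`thick0` to the upper level).  Owner: helper159.
-/
import Mathlib
import Fermat.Agent.S18.Defs
import Fermat.Agent.S36.BP.Defs
import Fermat.Agent.S36.BP.Rad
import Fermat.Agent.BAD.Model.Defs
import Fermat.Agent.BAD.Model.NC.Defs
import Fermat.Agent.BAD.Model.NC.Thick0
import Fermat.Agent.BAD.Model.NC.Good0

set_option autoImplicit false

noncomputable section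

namespace Fermat.Agent.BAD.Model.NC

open Fermat.Agent.S18 Fermat.Agent.S36.BP

variable {K₀ F : Type*} [Field K₀] [Field F] [Algebra K₀ F]
variable {A₀ : ValuationSubring K₀} {q : ℕ}
variable {R : Subring F} {g g' : F}

theorem thick_val_lt_one_iff_inv {E : Type*} [Field E] (V : ValuationSubring E) {y : E}
    (hy : y ≠ 0) : V.valuation y < 1 ↔ y⁻¹ ∉ V := by
  rw [← V.valuation_le_one_iff, map_inv₀, not_le,
    one_lt_inv₀ (zero_lt_iff.2 ((Valuation.ne_zero_iff _).2 hy))]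

theorem thick_val_lt_one_iff {F₀ : Type*} [Field F₀] (ι : F₀ →+* F) {W : ValuationSubring F}
    {W₀ : ValuationSubring F₀} (hW : W.comap ι = W₀) (y : F₀) :
    W.valuation (ι y) < 1 ↔ W₀.valuation y < 1 := by
  rcases eq_or_ne y 0 with rfl | hy
  · simp
  · rw [thick_val_lt_one_iff_inv W ((map_ne_zero ι).2 hy), thick_val_lt_one_iff_inv W₀ hy,
      ← map_inv₀, ← hW, ValuationSubring.mem_comap]

section Thick

variable {F₀ : Type*} [Field F₀] [Algebra K₀ F₀] {W₀ : ValuationSubring F₀} {R₀ : Subring F₀}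

/-- **Thickness one**: transfer of `thick0` to the point `R` of the upper level, along an embedding
`ι` with `f(W / W₀) = 1`.  In the application `ι = β ∘ β`, `W = V₀₂`, `g = T₂ - T₁^q`,
`g' = T₁ - T₂^q`, `k = q² / β κ`. -/
theorem thick_of_good0 (hq : q.Prime) (ι : F₀ →ₐ[K₀] F) (hU : IsUnif W₀ (q : F₀))
    {W : ValuationSubring F} (hW : W.comap (ι : F₀ →+* F) = W₀) (hR : IsPt A₀ R)
    (hle : ∀ r ∈ R, r ∈ W) (hd : ∀ y ∈ W, ∃ y₀ : F₀, W.valuation (ι y₀ - y) < 1)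
    (G : Good0 (ι : F₀ →+* F) W₀ q R R₀)
    (hconst : ∀ a ∈ A₀, algebraMap K₀ F₀ a ∈ R₀)
    (hconstW : ∀ a : K₀, A₀.valuation a < 1 → W₀.valuation (algebraMap K₀ F₀ a) < 1)
    (D : Derivation K₀ F₀ F₀) (hDR : ∀ r ∈ R₀, D r ∈ R₀) (hDW : ∀ y ∈ W₀, D y ∈ W₀)
    {T : F₀} (hT : T ∈ R₀) (hDT : D T = 1)
    {k : F} (hg : g ∈ R) (hg' : g' ∈ R) (hk : k ∈ rad R) (he : g * g' / (q : F) ∈ R)
    (hgW : W.valuation (g - (ι T - ι T ^ (q ^ 2))) < 1) (hg'W : g' / (q : F) ∈ W)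
    (hTq : ι T ^ (q ^ 2) - ι T ∈ rad R)
    (hid : ∀ ψ k₀ : F₀, W.valuation (ι ψ - g' / (q : F)) < 1 → W.valuation (ι k₀ - k) < 1 →
      W₀.valuation (k₀ * (D ψ + T ^ (q - 1)) - 1) < 1) :
    RUnit R (g * g' / (q : F)) := by
  by_contra hnu
  have herad : g * g' / (q : F) ∈ rad R := ⟨he, hnu⟩
  have hadd := hR.add_rad
  have dense := G.dense hW hle hadd hd
  -- a general transfer: an element of `R₀` congruent to an element of `rad R` lies in `rad R₀`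
  have key : ∀ r ∈ rad R, ∀ r₀ ∈ R₀, W.valuation (ι r₀ - r) < 1 → r₀ ∈ rad R₀ := by
    intro r hr r₀ hr₀ h
    rw [G.mem_rad_iff hr₀]
    have h1 : ι r₀ - r ∈ rad R :=
      mem_rad_of_val_lt hle (R.sub_mem (G.map_mem r₀ hr₀) hr.1) h
    have h2 : ι r₀ = (ι r₀ - r) + r := by ring
    show ι r₀ ∈ rad R
    rw [h2]
    exact hadd _ h1 _ hr
  obtain ⟨e₀, he₀R, he₀⟩ := dense _ he
  obtain ⟨k₀, hk₀R, hk₀⟩ := dense _ hk.1
  have he₀rad : e₀ ∈ rad R₀ := key _ herad e₀ he₀R he₀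
  have hk₀rad : k₀ ∈ rad R₀ := key _ hk k₀ hk₀R hk₀
  obtain ⟨ψ, hψ⟩ := hd _ hg'W
  have hιψ : W.valuation (ι ψ) ≤ 1 :=
    Cg.val_le_one (V := W) hψ (mem_iff_val_le.1 hg'W)
  have hψW : ψ ∈ W₀ := by
    rw [← hW, ValuationSubring.mem_comap]
    exact mem_iff_val_le.2 hιψ
  have hιT : ι T ∈ R := G.map_mem T hT
  obtain ⟨a, ha, haT⟩ := hR.res (ι T) hιT
  have haR : algebraMap K₀ F a ∈ R := hR.const_mem a ha
  have hTa : T - algebraMap K₀ F₀ a ∈ rad R₀ := by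
    rw [G.mem_rad_iff (R₀.sub_mem hT (hconst a ha))]
    show ι (T - algebraMap K₀ F₀ a) ∈ rad R
    rw [map_sub, ι.commutes]
    exact haT
  have haq : W₀.valuation (algebraMap K₀ F₀ (a ^ (q ^ 2) - a)) < 1 := by
    apply hconstW
    apply hR.val_lt_one_of_const_mem_rad (A₀.sub_mem (A₀.pow_mem ha _) ha)
    have c1 : Cr R (ι T) (algebraMap K₀ F a) := haT
    have c2 : Cr R (ι T ^ (q ^ 2)) (algebraMap K₀ F a ^ (q ^ 2)) := hR.cr_pow c1 haR _
    have c3 : Cr R (ι T ^ (q ^ 2)) (ι T) := hTq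
    have c4 : Cr R (algebraMap K₀ F a ^ (q ^ 2)) (algebraMap K₀ F a) :=
      hR.cr_trans c2.symm (hR.cr_trans c3 c1)
    rw [map_sub, map_pow]
    exact c4
  have hreg : ∃ t ∈ rad R₀, ∀ y ∈ rad R₀, ∃ r ∈ R₀, W₀.valuation (y - r * t) < 1 := by
    obtain ⟨t, ht, htrad, h⟩ := G.reg
    refine ⟨t, (G.mem_rad_iff ht).2 htrad, fun y hy => h y hy.1 ((G.mem_rad_iff hy.1).1 hy)⟩
  have he' : W₀.valuation (e₀ - (T - T ^ (q ^ 2)) * ψ) < 1 := by
    rw [← thick_val_lt_one_iff (ι : F₀ →+* F) hW]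
    have hmap : (ι : F₀ →+* F) (e₀ - (T - T ^ (q ^ 2)) * ψ) =
        ι e₀ - (ι T - ι T ^ (q ^ 2)) * ι ψ := by
      show ι (e₀ - (T - T ^ (q ^ 2)) * ψ) = _
      rw [map_sub ι, map_mul ι, map_sub ι, map_pow ι]
    rw [hmap]
    have c1 : Cg W (ι e₀) (g * g' / (q : F)) := he₀
    have c2 : Cg W g (ι T - ι T ^ (q ^ 2)) := hgW
    have c3 : Cg W (g' / (q : F)) (ι ψ) := Cg.symm hψ
    have hTW : W.valuation (ι T - ι T ^ (q ^ 2)) ≤ 1 :=
      mem_iff_val_le.1 (hle _ (R.sub_mem hιT (R.pow_mem hιT _)))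
    have c4 : Cg W (g * (g' / (q : F))) ((ι T - ι T ^ (q ^ 2)) * ι ψ) :=
      c2.mul c3 hTW (mem_iff_val_le.1 hg'W)
    rw [← mul_div_assoc] at c4
    exact c1.trans c4
  exact thick0 hq hU G.le (G.add_rad hadd) G.qep hreg D hDR hDW hT hDT (hconst a ha) hTa haq hψW
    hk₀rad he₀rad he' (hid ψ k₀ hψ hk₀)

end Thick

end Fermat.Agent.BAD.Model.NC
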